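/-
Program MAZ (S15), brick CUSP, part (C1)+(C2) (helper55).

THE TWO RATIONAL CUSPS `∞`, `0` OF `X₀(N)` AS PLACES OF `F = ℚbar(X₀(N)) ⊆ ℚbar((q))`, AND THE
CUSPIDAL DIVISOR CLASS `c = [(0) - (∞)] ∈ J₀(N)(ℚ)`.

* `cuspInf N`  : the `q`-adic place (`M1/Link/InfPlace39.infPlace`);
* `cuspZero N` : its image under the Fricke involution `W_N` (`ES/N34/FrickeFK8.frickeBarEquiv`);
* `cuspZero_ord`, `cuspZero_ord_jF`, `cuspZero_ord_jNF`, `cuspZero_ne_cuspInf` (`1 < N`);
* `galois_smul_cuspInf`, `galois_smul_cuspZero` : both cusps are fixed by the coefficientwise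
  Galois action of `Gal(ℚbar/ℚ)` (the Prelude's `arithmeticGalois`);
* `cuspDiv N`, `cuspClass N : JZero N`, `galois_smul_cuspClass`.
-/
import Mathlib
import Fermat.Agent.ES.N34.FrickeFK8
import Fermat.Agent.M1.Link.InfPlace39

set_option autoImplicit false
set_option linter.unusedSectionVars false

open AlgebraicCurve ModularCurve

noncomputable section

namespace Fermat.Agent.MAZ.Cusp.CuspPlaces55

open Fermat.Agent.X0 Fermat.Agent.M1.Link.InfPlace39 Fermat.Agent.ES.N34.FrickeFK8
open scoped Pointwise

/-! ### Order of a Laurent series under an injective coefficient map -/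

theorem order_coeffMap_of_injective {R S : Type*} [CommRing R] [CommRing S] (φ : R →+* S)
    (hφ : Function.Injective φ) (x : LaurentSeries R) : (coeffMap φ x).order = x.order := by
  by_cases hx : x = 0
  · subst hx; rw [map_zero, HahnSeries.order_zero, HahnSeries.order_zero]
  have hne : coeffMap φ x ≠ 0 := by
    intro h
    apply hx
    ext k
    have := congrArg (fun y => HahnSeries.coeff y k) h
    simp only [coeffMap_coeff, HahnSeries.coeff_zero] at this
    rw [HahnSeries.coeff_zero]
    exact hφ (by rw [this, map_zero])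
  apply le_antisymm
  · apply HahnSeries.order_le_of_coeff_ne_zero
    rw [coeffMap_coeff]
    intro h
    exact hx (HahnSeries.coeff_order_eq_zero.mp (hφ (by rw [h, map_zero])))
  · apply HahnSeries.order_le_of_coeff_ne_zero
    intro h
    apply hne
    apply HahnSeries.coeff_order_eq_zero.mp
    rw [coeffMap_coeff, h, map_zero]

variable (N : ℕ) [NeZero N]

/-! ### The two cusps -/

/-- The cusp `∞` of `X₀(N)`: the `q`-adic place of `F ⊆ ℚbar((q))`. -/
def cuspInf : Place Kbar (FF N) := infPlace N

/-- The cusp `0` of `X₀(N)`: the image of `∞` under the Fricke involution. -/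
def cuspZero : Place Kbar (FF N) := frickeBarEquiv N • infPlace N

theorem cuspInf_ord {f : FF N} (hf : f ≠ 0) :
    (cuspInf N).ord f = (f : LaurentSeries Kbar).order :=
  infPlace_ord N hf

/-- The order at `0` is the order at `∞` of the Fricke transform. -/
theorem cuspZero_ord_eq (f : FF N) : (cuspZero N).ord f = (cuspInf N).ord (frickeBar N f) := by
  have h := Place.ord_smul (frickeBarEquiv N) (infPlace N) (frickeBar N f)
  rwa [frickeBarEquiv_apply, frickeBar_frickeBar] at h

/-- The order at `0` is the `q`-order of the Fricke expansion. -/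
theorem cuspZero_ord {f : FF N} (hf : f ≠ 0) :
    (cuspZero N).ord f = (Fermat.Agent.RED.LVL.FrickeExp17.tauS N f).order := by
  have hf' : frickeBar N f ≠ 0 := fun h => hf (by
    have := congrArg (frickeBar N) h
    rwa [frickeBar_frickeBar, map_zero] at this)
  rw [cuspZero_ord_eq, cuspInf_ord N hf', coe_frickeBar]

theorem mem_cuspZero_iff (f : FF N) :
    f ∈ (cuspZero N).toValuationSubring ↔ frickeBar N f ∈ (cuspInf N).toValuationSubring := by
  show f ∈ (frickeBarEquiv N • (infPlace N).toValuationSubring : ValuationSubring (FF N)) ↔ _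
  rw [ValuationSubring.mem_pointwise_smul_iff_inv_smul_mem]
  have : (frickeBarEquiv N)⁻¹ • f = frickeBar N f := by
    rw [AlgEquiv.smul_def, AlgEquiv.aut_inv]
    apply (frickeBarEquiv N).injective
    rw [AlgEquiv.apply_symm_apply, frickeBarEquiv_apply, frickeBar_frickeBar]
  rw [this]
  rfl

/-! ### Orders of the generators `j(q^d)` at the two cusps -/

theorem jdF_ne_zero (d : ℕ) [NeZero d] (hd : d ∣ N) : jdF N d hd ≠ 0 := by
  intro h
  have h1 : ((jdF N d hd : FF N) : LaurentSeries Kbar).order = -(d : ℤ) := by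
    rw [coe_jdF_eq_qExpand]; exact order_qExpand_jqK d
  rw [h] at h1
  have hd0 : (0 : ℤ) < d := by exact_mod_cast Nat.pos_of_ne_zero (NeZero.ne d)
  simp only [ZeroMemClass.coe_zero, HahnSeries.order_zero] at h1
  omega

/-- `ord_∞ j(q^d) = -d`. -/
theorem cuspInf_ord_jdF (d : ℕ) [NeZero d] (hd : d ∣ N) :
    (cuspInf N).ord (jdF N d hd) = -(d : ℤ) := by
  rw [cuspInf_ord N (jdF_ne_zero N d hd), coe_jdF_eq_qExpand]
  exact order_qExpand_jqK d

/-- `ord_0 j(q^d) = -e` for `d e = N`. -/
theorem cuspZero_ord_jdF (d e : ℕ) [NeZero d] [NeZero e] (hde : d * e = N) :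
    (cuspZero N).ord (jdF N d (Dvd.intro _ hde)) = -(e : ℤ) := by
  rw [cuspZero_ord_eq, frickeBar_jdF N d e hde]
  exact cuspInf_ord_jdF N e _

theorem cuspInf_ord_jF : (cuspInf N).ord (jF N) = -1 := by
  have := cuspInf_ord_jdF N 1 (one_dvd N)
  simpa [jF] using this

theorem cuspZero_ord_jF : (cuspZero N).ord (jF N) = -(N : ℤ) :=
  cuspZero_ord_jdF N 1 N (one_mul N)

theorem cuspInf_ord_jNF : (cuspInf N).ord (jdF N N dvd_rfl) = -(N : ℤ) :=
  cuspInf_ord_jdF N N dvd_rfl

theorem cuspZero_ord_jNF : (cuspZero N).ord (jdF N N dvd_rfl) = -1 := by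
  have := cuspZero_ord_jdF N N 1 (mul_one N)
  simpa using this

/-- The two cusps are different (for `N > 1`). -/
theorem cuspZero_ne_cuspInf (hN : 1 < N) : cuspZero N ≠ cuspInf N := by
  intro h
  have h1 := cuspZero_ord_jF N
  rw [h, cuspInf_ord_jF] at h1
  have : (1 : ℤ) < N := by exact_mod_cast hN
  omega

/-! ### Galois invariance -/

section Galois

variable (σ : Kbar ≃ₐ[ℚ] Kbar)

/-- The generators have rational coefficients, hence are Galois-fixed. -/
theorem arithmeticRingAut_jdF (d : ℕ) [NeZero d] (hd : d ∣ N) :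
    arithmeticRingAut (modularFunctionFieldFull N) σ (jdF N d hd) = jdF N d hd := by
  apply Subtype.ext
  rw [coe_arithmeticRingAut_apply]
  exact coeffMap_coeffEmb σ _

/-- `W_N` conjugated by `σ`, as a `ℚbar`-algebra endomorphism. -/
def frickeConj : FF N →ₐ[Kbar] FF N where
  toFun f := (arithmeticRingAut (modularFunctionFieldFull N) σ).symm
    (frickeBar N (arithmeticRingAut (modularFunctionFieldFull N) σ f))
  map_one' := by simp
  map_mul' x y := by simp
  map_zero' := by simp
  map_add' x y := by simp
  commutes' c := by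
    show (arithmeticRingAut (modularFunctionFieldFull N) σ).symm
      (frickeBar N (arithmeticRingAut (modularFunctionFieldFull N) σ
        (algebraMap Kbar (FF N) c))) = algebraMap Kbar (FF N) c
    rw [arithmeticRingAut_algebraMap, (frickeBar N).commutes, RingEquiv.symm_apply_eq,
      arithmeticRingAut_algebraMap]

theorem frickeConj_eq : frickeConj N σ = frickeBar N := by
  apply algHom_ext_jdF
  intro d _ hd
  obtain ⟨e, hde⟩ := hd
  have he0 : e ≠ 0 := by
    rintro rfl
    exact NeZero.ne N (by rw [hde, mul_zero])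
  have : NeZero e := ⟨he0⟩
  show (arithmeticRingAut (modularFunctionFieldFull N) σ).symm
    (frickeBar N (arithmeticRingAut (modularFunctionFieldFull N) σ (jdF N d _))) = _
  rw [arithmeticRingAut_jdF, frickeBar_jdF N d e hde.symm, RingEquiv.symm_apply_eq,
    arithmeticRingAut_jdF]

/-- **`W_N` commutes with the coefficientwise Galois action.** -/
theorem frickeBar_arithmeticRingAut (f : FF N) :
    frickeBar N (arithmeticRingAut (modularFunctionFieldFull N) σ f) =
      arithmeticRingAut (modularFunctionFieldFull N) σ (frickeBar N f) := by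
  have h := DFunLike.congr_fun (frickeConj_eq N σ) f
  have h' : (arithmeticRingAut (modularFunctionFieldFull N) σ).symm
      (frickeBar N (arithmeticRingAut (modularFunctionFieldFull N) σ f)) = frickeBar N f := h
  rwa [RingEquiv.symm_apply_eq] at h'

theorem frickeBar_arithmeticRingAut_symm (f : FF N) :
    frickeBar N ((arithmeticRingAut (modularFunctionFieldFull N) σ).symm f) =
      (arithmeticRingAut (modularFunctionFieldFull N) σ).symm (frickeBar N f) := by
  rw [RingEquiv.eq_symm_apply, ← frickeBar_arithmeticRingAut, RingEquiv.apply_symm_apply]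

theorem mem_cuspInf_iff {f : FF N} :
    f ∈ (cuspInf N).toValuationSubring ↔ f = 0 ∨ 0 ≤ (f : LaurentSeries Kbar).order := by
  by_cases hf : f = 0
  · subst hf; simp
  · rw [or_iff_right hf]; exact mem_infPlace_iff N hf

theorem arithmeticRingAut_symm_mem_cuspInf_iff (f : FF N) :
    (arithmeticRingAut (modularFunctionFieldFull N) σ).symm f ∈ (cuspInf N).toValuationSubring ↔
      f ∈ (cuspInf N).toValuationSubring := by
  rw [mem_cuspInf_iff, mem_cuspInf_iff]
  have h1 : (((arithmeticRingAut (modularFunctionFieldFull N) σ).symm f : FF N) :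
      LaurentSeries Kbar) = coeffMap ((σ.symm : Kbar ≃ₐ[ℚ] Kbar) : Kbar →+* Kbar)
        (f : LaurentSeries Kbar) := rfl
  rw [h1, order_coeffMap_of_injective _ (σ.symm : Kbar ≃ₐ[ℚ] Kbar).injective]
  constructor
  · rintro (h | h)
    · left
      exact (arithmeticRingAut (modularFunctionFieldFull N) σ).symm.injective
        (by rw [h, map_zero])
    · right; exact h
  · rintro (h | h)
    · left; rw [h, map_zero]
    · right; exact h

/-- **The cusp `∞` is `ℚ`-rational.** -/
theorem galois_smul_cuspInf :
    arithmeticGalois (modularFunctionFieldFull N) σ • cuspInf N = cuspInf N := by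
  apply Place.ext
  ext f
  rw [SemilinearAut.smul_toValuationSubring,
    ValuationSubring.mem_pointwise_smul_iff_inv_smul_mem, SemilinearAut.inv_smul_def,
    toRingAut_arithmeticGalois]
  exact arithmeticRingAut_symm_mem_cuspInf_iff N σ f

/-- **The cusp `0` is `ℚ`-rational.** -/
theorem galois_smul_cuspZero :
    arithmeticGalois (modularFunctionFieldFull N) σ • cuspZero N = cuspZero N := by
  apply Place.ext
  ext f
  rw [SemilinearAut.smul_toValuationSubring,
    ValuationSubring.mem_pointwise_smul_iff_inv_smul_mem, SemilinearAut.inv_smul_def,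
    toRingAut_arithmeticGalois, mem_cuspZero_iff, mem_cuspZero_iff,
    frickeBar_arithmeticRingAut_symm]
  exact arithmeticRingAut_symm_mem_cuspInf_iff N σ _

end Galois

end Fermat.Agent.MAZ.Cusp.CuspPlaces55
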