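/-
Program MAZ (S15), brick CUSP, part (C3), generic half (helper55).

IN A FUNCTION FIELD OF GENUS `≥ 1` THE DIFFERENCE OF TWO DISTINCT POINTS IS NOT PRINCIPAL.

`F / K` a function field with a transcendental generator (`IsGen K x`), `K` algebraically closed of
characteristic zero, `[HasCanonicalDivisor]`.  If `div f = (P) - (Q)` with `P ≠ Q`, then
`1, f, …, f^n ∈ L(n Q)` have pairwise different pole orders at `Q`, so `l(n Q) ≥ n + 1` for all `n`;
Riemann–Roch (`RR/RRMain.finrank_L_of_degree_gt`) gives `l(n Q) = n + 1 - g` for `n > 2g - 2`: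
hence `g = 0`.

* `finrank_L_single_ge`  : `n + 1 ≤ l(n Q)`;
* `genus_eq_zero_of_ord_eq` : `genus K F = 0`;
* `not_isPrincipal_single_sub_single` : for `0 < genus K F`, `(P) - (Q)` is not principal.
-/
import Mathlib
import Fermat.Agent.RR.RRMain

set_option autoImplicit false
set_option linter.unusedSectionVars false

open AlgebraicCurve IntermediateField

namespace Fermat.Agent.MAZ.Cusp.NotPrincipal55

open Fermat.Agent.X0.FF Fermat.Agent.RR.LSpace Fermat.Agent.RR.RRMain

variable {K F : Type*} [Field K] [Field F] [Algebra K F] [IsAlgClosed K] [CharZero K] {x : F}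
  [HasCanonicalDivisor (K := K) (F := F)]

section

variable {P Q : Place K F} {f : F}

/-- `f^k ∈ L(n Q)` for `k ≤ n`, when `div f = (P) - (Q)`. -/
theorem pow_mem_L (hPQ : P ≠ Q) (hf : f ≠ 0)
    (hdiv : ∀ v : Place K F, v.ord f = (Finsupp.single P (1 : ℤ) - Finsupp.single Q (1 : ℤ) : Place K F →₀ ℤ) v)
    {k n : ℕ} (hkn : k ≤ n) : f ^ k ∈ riemannRochSpace (Finsupp.single Q (n : ℤ)) := by
  rw [mem_L_iff (pow_ne_zero k hf)]
  intro v
  have hk : v.ord (f ^ k) = (k : ℤ) * v.ord f := by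
    have := v.ord_zpow f (k : ℤ)
    rwa [zpow_natCast] at this
  rw [hk, hdiv v, Finsupp.sub_apply]
  by_cases hvQ : v = Q
  · subst hvQ
    rw [Finsupp.single_eq_same, Finsupp.single_eq_same,
      Finsupp.single_eq_of_ne (Ne.symm hPQ)]
    have : (k : ℤ) ≤ n := by exact_mod_cast hkn
    linarith
  · rw [Finsupp.single_eq_of_ne hvQ, Finsupp.single_eq_of_ne hvQ]
    by_cases hvP : v = P
    · subst hvP
      rw [Finsupp.single_eq_same]
      have : (0 : ℤ) ≤ k := Int.natCast_nonneg k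
      linarith
    · rw [Finsupp.single_eq_of_ne hvP]
      simp

/-- `f^(n+1) ∉ L(n Q)`. -/
theorem pow_succ_not_mem_L (hPQ : P ≠ Q) (hf : f ≠ 0)
    (hdiv : ∀ v : Place K F, v.ord f = (Finsupp.single P (1 : ℤ) - Finsupp.single Q (1 : ℤ) : Place K F →₀ ℤ) v)
    (n : ℕ) : f ^ (n + 1) ∉ riemannRochSpace (Finsupp.single Q (n : ℤ)) := by
  rw [mem_L_iff (pow_ne_zero (n + 1) hf)]
  intro h
  have h1 := h Q
  have hk : Q.ord (f ^ (n + 1)) = ((n + 1 : ℕ) : ℤ) * Q.ord f := by
    have := Q.ord_zpow f ((n + 1 : ℕ) : ℤ)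
    rwa [zpow_natCast] at this
  rw [hk, hdiv Q, Finsupp.sub_apply, Finsupp.single_eq_same, Finsupp.single_eq_same,
    Finsupp.single_eq_of_ne (Ne.symm hPQ)] at h1
  push_cast at h1
  linarith

/-- `l(n Q) ≥ n + 1` when `div f = (P) - (Q)`. -/
theorem finrank_L_single_ge (hx : IsGen K x) (hPQ : P ≠ Q) (hf : f ≠ 0)
    (hdiv : ∀ v : Place K F, v.ord f = (Finsupp.single P (1 : ℤ) - Finsupp.single Q (1 : ℤ) : Place K F →₀ ℤ) v)
    (n : ℕ) : n + 1 ≤ Module.finrank K (riemannRochSpace (Finsupp.single Q (n : ℤ))) := by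
  induction n with
  | zero =>
    have := finiteDimensional_L hx (Finsupp.single Q ((0 : ℕ) : ℤ))
    have hmem : (f ^ 0 : F) ∈ riemannRochSpace (Finsupp.single Q ((0 : ℕ) : ℤ)) :=
      pow_mem_L hPQ hf hdiv le_rfl
    have hne : riemannRochSpace (Finsupp.single Q ((0 : ℕ) : ℤ)) ≠ ⊥ := by
      intro h
      rw [h, Submodule.mem_bot, pow_zero] at hmem
      exact one_ne_zero hmem
    have := Submodule.one_le_finrank_iff.mpr hne
    omega
  | succ n ih =>
    have := finiteDimensional_L hx (Finsupp.single Q ((n + 1 : ℕ) : ℤ))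
    have hle : riemannRochSpace (Finsupp.single Q (n : ℤ)) ≤
        riemannRochSpace (Finsupp.single Q ((n + 1 : ℕ) : ℤ)) := by
      apply L_mono
      intro v
      by_cases hv : v = Q
      · subst hv
        rw [Finsupp.single_eq_same, Finsupp.single_eq_same]
        push_cast
        linarith
      · rw [Finsupp.single_eq_of_ne hv, Finsupp.single_eq_of_ne hv]
    have hlt : riemannRochSpace (Finsupp.single Q (n : ℤ)) <
        riemannRochSpace (Finsupp.single Q ((n + 1 : ℕ) : ℤ)) := by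
      refine lt_of_le_of_ne hle fun h => ?_
      have hmem : f ^ (n + 1) ∈ riemannRochSpace (Finsupp.single Q ((n + 1 : ℕ) : ℤ)) :=
        pow_mem_L hPQ hf hdiv le_rfl
      rw [← h] at hmem
      exact pow_succ_not_mem_L hPQ hf hdiv n hmem
    have := Submodule.finrank_lt_finrank_of_lt hlt
    omega

/-- **A function with divisor `(P) - (Q)`, `P ≠ Q`, forces genus `0`.** -/
theorem genus_eq_zero_of_ord_eq (hx : IsGen K x) (hPQ : P ≠ Q) (hf : f ≠ 0)
    (hdiv : ∀ v : Place K F, v.ord f = (Finsupp.single P (1 : ℤ) - Finsupp.single Q (1 : ℤ) : Place K F →₀ ℤ) v) :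
    genus K F = 0 := by
  set g := genus K F with hg
  have H := Fermat.Agent.RR.LHypGen.lHyp_of_isGen hx
  have hdeg : Divisor.degree (Finsupp.single Q ((2 * g : ℕ) : ℤ)) = ((2 * g : ℕ) : ℤ) :=
    degree_single H Q _
  have h1 := finrank_L_of_degree_gt hx (Finsupp.single Q ((2 * g : ℕ) : ℤ))
    (by rw [hdeg]; push_cast; omega)
  have h2 := finrank_L_single_ge hx hPQ hf hdiv (2 * g)
  rw [hdeg] at h1
  have h3 : ((2 * g + 1 : ℕ) : ℤ) ≤
      (Module.finrank K (riemannRochSpace (Finsupp.single Q ((2 * g : ℕ) : ℤ))) : ℤ) := by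
    exact_mod_cast h2
  rw [h1] at h3
  push_cast at h3
  omega

/-- **In genus `≥ 1` the divisor `(P) - (Q)`, `P ≠ Q`, is not principal.** -/
theorem not_isPrincipal_single_sub_single (hx : IsGen K x) (hg : 0 < genus K F) (hPQ : P ≠ Q) :
    ¬ Divisor.IsPrincipal (Finsupp.single P (1 : ℤ) - Finsupp.single Q 1) := by
  rintro ⟨f, hf, hdiv⟩
  have := genus_eq_zero_of_ord_eq hx hPQ hf (fun v => (hdiv v).symm)
  omega

end

end Fermat.Agent.MAZ.Cusp.NotPrincipal55
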