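/-
Program MAZ (S15), brick CUSP, parts (C2)+(C3) (helper55).

THE CUSPIDAL DIVISOR CLASS `c = [(0) - (∞)] ∈ J₀(N)(ℚ)`.

* `cuspDiv N : Divisor.degZero`, `cuspClass N : JZero N`;
* `galois_smul_cuspClass` : `σ • cuspClass N = cuspClass N` for the Prelude's Galois action on
  `JZero N` (so `c` is a `ℚ`-rational point of `J₀(N)`);
* `genus_pos_of_prime` : the genus of `X₀(p)` is positive for a prime `p ∉ {2,3,5,7,13}`
  (S24 + numerics);
* `cuspClass_ne_zero` : for such `p`, `cuspClass p ≠ 0`  (Riemann–Roch: a function with divisor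
  `(0) - (∞)` forces genus `0`).  This is the place where the hypothesis `p ∉ {2,3,5,7,13}` of S15
  enters Mazur's argument.
-/
import Mathlib
import Fermat.Agent.MAZ.Cusp.CuspPlaces55
import Fermat.Agent.MAZ.Cusp.NotPrincipal55
import Fermat.Agent.RED.TOP.FbarFacts20
import Fermat.Agent.X0.HasCanDivInst
import Fermat.Agent.X0.GNTable
import Fermat.Agent.S24

set_option autoImplicit false
set_option linter.unusedSectionVars false

open AlgebraicCurve ModularCurve

noncomputable section

namespace Fermat.Agent.MAZ.Cusp.CuspClass55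

open Fermat.Agent.X0 Fermat.Agent.MAZ.Cusp.CuspPlaces55 Fermat.Agent.RED.TOP

variable (N : ℕ) [NeZero N]

/-! ### The class -/

theorem deg_cuspInf : (cuspInf N).deg = 1 := FbarFacts20.deg_eq_one_bar N _

theorem deg_cuspZero : (cuspZero N).deg = 1 := FbarFacts20.deg_eq_one_bar N _

/-- The divisor `(0) - (∞)`. -/
def cuspDivisor : Divisor Kbar (FF N) :=
  Finsupp.single (cuspZero N) (1 : ℤ) - Finsupp.single (cuspInf N) (1 : ℤ)

theorem cuspDivisor_mem_degZero :
    cuspDivisor N ∈ Divisor.degZero (K := Kbar) (F := FF N) := by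
  rw [Divisor.mem_degZero, cuspDivisor, map_sub, Divisor.degree_single, Divisor.degree_single,
    deg_cuspInf, deg_cuspZero, sub_self]

/-- The degree-zero divisor `(0) - (∞)`. -/
def cuspDiv : Divisor.degZero (K := Kbar) (F := FF N) := ⟨cuspDivisor N, cuspDivisor_mem_degZero N⟩

/-- **The cuspidal class `c = [(0) - (∞)]` of `J₀(N)`.** -/
def cuspClass : JZero N := Pic0.mk (cuspDiv N)

/-- The divisor `(0) - (∞)` is Galois-invariant. -/
theorem galois_smul_cuspDivisor (σ : Kbar ≃ₐ[ℚ] Kbar) :
    arithmeticGalois (modularFunctionFieldFull N) σ • cuspDivisor N = cuspDivisor N := by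
  rw [cuspDivisor, smul_sub, SemilinearAut.smul_single, SemilinearAut.smul_single,
    galois_smul_cuspInf, galois_smul_cuspZero]

/-- **The cuspidal class is `ℚ`-rational**: it is fixed by the Prelude's Galois action. -/
theorem galois_smul_cuspClass (σ : Kbar ≃ₐ[ℚ] Kbar) : σ • cuspClass N = cuspClass N := by
  rw [galois_smul_pic0_def, cuspClass, SemilinearAut.pic0_smul_mk]
  congr 1
  apply Subtype.ext
  rw [SemilinearAut.coe_degZeroSMulHom]
  exact galois_smul_cuspDivisor N σ

theorem cuspClass_mem_fixedPoints :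
    cuspClass N ∈ MulAction.fixedPoints (Kbar ≃ₐ[ℚ] Kbar) (JZero N) :=
  fun σ => galois_smul_cuspClass N σ

/-- `cuspClass N = 0` iff `(0) - (∞)` is principal. -/
theorem cuspClass_eq_zero_iff :
    cuspClass N = 0 ↔ Divisor.IsPrincipal (cuspDivisor N) := by
  rw [cuspClass, Pic0.mk, QuotientAddGroup.eq_zero_iff, AddSubgroup.mem_addSubgroupOf]
  exact Divisor.mem_principal

/-! ### Positivity of the genus -/

section Genus

variable {p : ℕ} [Fact p.Prime]

theorem dedekindPsi_prime : dedekindPsi p = p + 1 := by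
  have hp : p.Prime := Fact.out
  rw [dedekindPsi, Nat.Prime.divisors hp, Finset.filter_true_of_mem]
  · rw [Finset.sum_pair hp.one_lt.ne, Nat.div_one, Nat.div_self hp.pos]
  · intro d hd
    rcases Finset.mem_insert.mp hd with rfl | hd
    · exact squarefree_one
    · rw [Finset.mem_singleton] at hd
      subst hd
      exact hp.prime.squarefree

theorem cuspCount_prime : cuspCount p = 2 := by
  have hp : p.Prime := Fact.out
  rw [cuspCount, Nat.Prime.divisors hp, Finset.sum_pair hp.one_lt.ne]
  simp [Nat.div_self hp.pos]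

/-- `12 (g - 1) + 12 = p + 1 - 3 ν₂ - 4 ν₃ - 12 + 12`: the genus formula at a prime level. -/
theorem genusFormula_prime :
    genusFormula p = ((p : ℚ) + 1) / 12 - (nuTwo p : ℚ) / 4 - (nuThree p : ℚ) / 3 := by
  rw [genusFormula, dedekindPsi_prime, cuspCount_prime]
  push_cast
  ring

theorem genusFormula_pos (hp' : p ∉ ({2, 3, 5, 7, 13} : Finset ℕ)) : 0 < genusFormula p := by
  have hp : p.Prime := Fact.out
  have h2 : nuTwo p ≤ 2 := by simpa using GNTable.gnt_nuTwo_prime_pow_le hp 0
  have h3 : nuThree p ≤ 2 := by simpa using GNTable.gnt_nuThree_prime_pow_le hp 0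
  have h2' : (nuTwo p : ℚ) ≤ 2 := by exact_mod_cast h2
  have h3' : (nuThree p : ℚ) ≤ 2 := by exact_mod_cast h3
  rw [genusFormula_prime]
  simp only [Finset.mem_insert, Finset.mem_singleton, not_or] at hp'
  obtain ⟨n2, n3, n5, n7, n13⟩ := hp'
  by_cases h17 : 17 ≤ p
  · have : (17 : ℚ) ≤ p := by exact_mod_cast h17
    linarith
  · -- `p = 11`
    have hp11 : p = 11 := by
      have hlt : p < 17 := not_le.mp h17
      have h2le := hp.two_le
      interval_cases p <;> first | rfl | omega | (exfalso; revert hp; decide)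
    subst hp11
    have e2 : nuTwo 11 = 0 := by
      simpa using GNNu.gnn_nuTwo_prime_pow_of_three (p := 11) (by norm_num) (by norm_num) 0
    have e3 : nuThree 11 = 0 := by
      simpa using GNNu.gnn_nuThree_prime_pow_of_two (p := 11) (by norm_num) (by norm_num) 0
    rw [e2, e3]
    norm_num

/-- **The genus of `X₀(p)` is positive for a prime `p ∉ {2, 3, 5, 7, 13}`.** -/
theorem genus_pos_of_prime (hp' : p ∉ ({2, 3, 5, 7, 13} : Finset ℕ))
    [HasCanonicalDivisor (K := Kbar) (F := FF p)] : 0 < genus Kbar (FF p) := by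
  have h := Fermat.Agent.S24.result p
  have hpos := genusFormula_pos hp'
  rw [← h] at hpos
  exact_mod_cast hpos

end Genus

/-! ### `c ≠ 0` -/

/-- **The cuspidal class of `J₀(p)` is nonzero** for a prime `p ∉ {2, 3, 5, 7, 13}`. -/
theorem cuspClass_ne_zero {p : ℕ} [Fact p.Prime] (hp' : p ∉ ({2, 3, 5, 7, 13} : Finset ℕ)) :
    cuspClass p ≠ 0 := by
  have hp : p.Prime := Fact.out
  have : HasCanonicalDivisor (K := Kbar) (F := FF p) := HasCanDivInst.hasCanonicalDivisor p
  rw [Ne, cuspClass_eq_zero_iff]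
  exact NotPrincipal55.not_isPrincipal_single_sub_single (FbarFacts20.isGen_j p)
    (genus_pos_of_prime hp') (cuspZero_ne_cuspInf p hp.one_lt)

end Fermat.Agent.MAZ.Cusp.CuspClass55
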