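/-
Program MAZ (S15), brick CUSP, part (C6) (helper55).

THE ORDER OF THE CUSPIDAL CLASS DIVIDES `p - 1`  (Ogg's easy half; the modular unit `Δ(q^p)/Δ(q)`).

* `eq_cuspInf_or_eq_cuspZero` : for `p` prime, the only places of `FF p` over `j = ∞` are the two
  cusps `∞`, `0` (degree count: `∑_{v | ∞} -ord_v j = [FF p : ℚbar(j)] = p + 1 = 1 + p`);
* `ord_eq_zero_of_isRealizedBy` : an element of `FF N` (ANY level) realised by a nowhere vanishing
  holomorphic function on `ℍ` has order `0` at every place which is not a pole of `j`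
  (`X0/PointPlacesD.pointPlaceD_spec`; the multiplicity at elliptic points cancels);
* `ord_uF` : the divisor of the modular unit `uF p = Δ(q^p)/Δ(q)` is `(p-1)·((∞) - (0))`;
* `isPrincipal_smul_cuspDivisor`, `smul_cuspClass_eq_zero` : `(p - 1) • cuspClass p = 0`.
-/
import Mathlib
import Fermat.Agent.MAZ.Cusp.CuspClass55
import Fermat.Agent.RED.BASE.Hauptmodul12
import Fermat.Agent.IG.PR.TransferPoly20
import Fermat.Agent.IG.PR.ThetaV1

set_option autoImplicit false
set_option linter.unusedSectionVars false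

open AlgebraicCurve ModularCurve UpperHalfPlane
open scoped MatrixGroups IntermediateField

noncomputable section

namespace Fermat.Agent.MAZ.Cusp.CuspOrder55

open Fermat.Agent.X0 Fermat.Agent.X0.FF Fermat.Agent.X0.PointPlacesD
open Fermat.Agent.MAZ.Cusp.CuspPlaces55 Fermat.Agent.MAZ.Cusp.CuspClass55
open Fermat.Agent.RED.TOP Fermat.Agent.RED.BASE.Unbranched14 Fermat.Agent.RED.BASE.Hauptmodul12
open Fermat.Agent.IG.PR.Interface20

/-! ### The two cusps are the only places over `j = ∞` (prime level) -/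

section Dichotomy

variable (p : ℕ) [hp : Fact p.Prime]

/-- **`X₀(p)` has exactly two cusps.** -/
theorem eq_cuspInf_or_eq_cuspZero (v : Place Kbar (FF p)) (hv : v.ord (jF p) < 0) :
    v = cuspInf p ∨ v = cuspZero p := by
  classical
  by_contra hcon
  push Not at hcon
  obtain ⟨h1, h2⟩ := hcon
  have hgen := FbarFacts20.isGen_j p
  have hsum := sum_ord_poles hgen
  have hfin := finite_poles hgen
  have hdeg : Module.finrank Kbar⟮jF p⟯ (FF p) = p + 1 := by
    rw [Degree.finrank_adjoin p (realizeData p) (cuspData p), dedekindPsi_prime]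
  change ∑ᶠ w ∈ {w : Place Kbar (FF p) | w.ord (jF p) < 0}, -w.ord (jF p) = _ at hsum
  rw [finsum_mem_eq_finite_toFinset_sum _ hfin, hdeg] at hsum
  have hInf : cuspInf p ∈ hfin.toFinset := by
    rw [Set.Finite.mem_toFinset, Set.mem_ofPred_eq, cuspInf_ord_jF]; norm_num
  have hZero : cuspZero p ∈ hfin.toFinset := by
    rw [Set.Finite.mem_toFinset, Set.mem_ofPred_eq, cuspZero_ord_jF]
    have : (0 : ℤ) < p := by exact_mod_cast hp.out.pos
    omega
  have hvm : v ∈ hfin.toFinset := by
    rw [Set.Finite.mem_toFinset]; exact hv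
  have hne : cuspZero p ≠ cuspInf p := cuspZero_ne_cuspInf p hp.out.one_lt
  have hsub : ({cuspInf p, cuspZero p, v} : Finset (Place Kbar (FF p))) ⊆ hfin.toFinset := by
    intro w hw
    simp only [Finset.mem_insert, Finset.mem_singleton] at hw
    rcases hw with rfl | rfl | rfl <;> assumption
  have hle := Finset.sum_le_sum_of_subset_of_nonneg (f := fun w => -w.ord (jF p)) hsub
    (fun w hw _ => by
      rw [Set.Finite.mem_toFinset] at hw
      have : w.ord (jF p) < 0 := hw
      omega)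
  rw [hsum] at hle
  rw [Finset.sum_insert (by
      simp only [Finset.mem_insert, Finset.mem_singleton, not_or]
      exact ⟨hne.symm, Ne.symm h1⟩),
    Finset.sum_insert (by
      simp only [Finset.mem_singleton]
      exact Ne.symm h2),
    Finset.sum_singleton, cuspInf_ord_jF, cuspZero_ord_jF] at hle
  push_cast at hle
  omega

end Dichotomy

/-! ### Nowhere vanishing modular functions are units away from the cusps -/

section Units

variable {N : ℕ} [NeZero N]

/-- **An element of `FF N` realised by a nowhere vanishing holomorphic function has order `0` at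
every place which is not a pole of `j`.** -/
theorem ord_eq_zero_of_isRealizedBy (D : RealizeData N) (C : CuspData N D)
    {t : FF N} {τ : ℍ → ℂ} (hτ : τ ∈ HolH) (hτ0 : ∀ z, τ z ≠ 0) (ht : IsRealizedBy D t τ)
    (ht0 : t ≠ 0) (v : Place Kbar (FF N)) (hv : 0 ≤ v.ord (jF N)) : v.ord t = 0 := by
  obtain ⟨z₀, cj, hc, g, rfl⟩ := exists_pointPlaceD_eq_of_ord_nonneg D C v hv
  obtain ⟨a, b, hb, hab, hΘ⟩ := ht
  set w := pointPlaceD D z₀ cj hc g with hw
  have hbF : (b : FF N) ≠ 0 := fun h => hb (Subtype.ext h)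
  have haF : (a : FF N) ≠ 0 := by rw [← hab]; exact mul_ne_zero ht0 hbF
  have ha : a ≠ 0 := fun h => haF (by rw [h]; rfl)
  have hord : w.ord t + w.ord (b : FF N) = w.ord (a : FF N) := by
    rw [← hab, Place.ord_mul w ht0 hbF]
  have hΘa : D.Θ a = D.Θ b * τ := by
    funext z
    rw [Pi.mul_apply]
    exact hΘ z
  have hcomp : compSL (D.Θ a) g⁻¹ = compSL (D.Θ b) g⁻¹ * compSL τ g⁻¹ := by
    rw [hΘa, compSL_mul_fun]
  have h0 : ordH (compSL τ g⁻¹) z₀ = 0 := by
    rw [ordH_eq_zero_iff (compSL_mem_HolH hτ g⁻¹), compSL_apply]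
    exact hτ0 _
  have hordH : ordH (compSL (D.Θ a) g⁻¹) z₀ = ordH (compSL (D.Θ b) g⁻¹) z₀ := by
    rw [hcomp, ordH_mul (compSL_mem_HolH (D.mem_HolH b) g⁻¹) (compSL_mem_HolH hτ g⁻¹), h0,
      add_zero]
  have e1 := pointPlaceD_spec D z₀ cj hc g a ha
  have e2 := pointPlaceD_spec D z₀ cj hc g b hb
  rw [hordH, e2] at e1
  have hm : (pointMultD D z₀ cj hc g : ℤ) ≠ 0 := by
    exact_mod_cast (pointMultD_pos D z₀ cj hc g).ne'
  have := mul_left_cancel₀ hm e1
  rw [← hw] at this
  omega

end Units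

/-! ### The divisor of the modular unit -/

section ModularUnit

variable (p : ℕ) [hp : Fact p.Prime]

theorem uF_ne_zero' : uF p ≠ 0 := by
  intro h
  have h1 : uq Kbar p = 0 := congrArg Subtype.val h
  rw [Fermat.Agent.IG.PR.TransferPoly20.uq_eq_div, div_eq_zero_iff] at h1
  rcases h1 with h1 | h1
  · exact Fermat.Agent.IG.PR.ThetaV1.qExpand_ne_zero p
      (Fermat.Agent.IG.PR.TransferPoly20.deltaq_ne_zero Kbar) h1
  · exact Fermat.Agent.IG.PR.TransferPoly20.deltaq_ne_zero Kbar h1

/-- The `q`-order of `Δ(q^p)/Δ(q)` is `p - 1`. -/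
theorem order_uq : (uq Kbar p).order = (p : ℤ) - 1 := by
  have hd := Fermat.Agent.IG.PR.TransferPoly20.deltaq_ne_zero Kbar
  have hq := Fermat.Agent.IG.PR.ThetaV1.qExpand_ne_zero p hd
  have h1 : uq Kbar p * deltaq Kbar = qExpand Kbar p (deltaq Kbar) := by
    rw [Fermat.Agent.IG.PR.TransferPoly20.uq_eq_div, div_mul_cancel₀ _ hd]
  have hu : uq Kbar p ≠ 0 := fun h => hq (by rw [← h1, h, zero_mul])
  have h2 := congrArg HahnSeries.order h1
  rw [HahnSeries.order_mul hu hd, Fermat.Agent.IG.PR.TransferPoly20.order_deltaq,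
    Fermat.Agent.IG.PR.ThetaV1.order_qExpand,
    Fermat.Agent.IG.PR.TransferPoly20.order_deltaq] at h2
  linarith

theorem deltaQuot_ne_zero55 (z : ℍ) : Fermat.Agent.IG.AN.DeltaQuot19.deltaQuot p z ≠ 0 := by
  unfold Fermat.Agent.IG.AN.DeltaQuot19.deltaQuot
  exact div_ne_zero (ModularForm.discriminant_ne_zero _) (ModularForm.discriminant_ne_zero _)

/-- The modular unit is a unit away from the cusps. -/
theorem ord_uF_of_nonneg (v : Place Kbar (FF p)) (hv : 0 ≤ v.ord (jF p)) : v.ord (uF p) = 0 :=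
  ord_eq_zero_of_isRealizedBy (realizeData p) (cuspData p)
    (Fermat.Agent.IG.AN.DeltaQuot19.deltaQuot_mem_HolH p) (deltaQuot_ne_zero55 p)
    (isRealizedBy_uF p) (uF_ne_zero' p) v hv

/-- `ord_∞ (Δ(q^p)/Δ(q)) = p - 1`. -/
theorem ord_uF_cuspInf : (cuspInf p).ord (uF p) = (p : ℤ) - 1 := by
  rw [cuspInf_ord p (uF_ne_zero' p), coe_uF, order_uq]

/-- `ord_0 (Δ(q^p)/Δ(q)) = -(p - 1)`: principal divisors have degree `0`. -/
theorem ord_uF_cuspZero : (cuspZero p).ord (uF p) = -((p : ℤ) - 1) := by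
  obtain ⟨D, hD, hdeg⟩ := FbarFacts20.exists_divisor_bar p (uF_ne_zero' p)
  have hne : cuspZero p ≠ cuspInf p := cuspZero_ne_cuspInf p hp.out.one_lt
  have hsupp : D = Finsupp.single (cuspInf p) (D (cuspInf p)) +
      Finsupp.single (cuspZero p) (D (cuspZero p)) := by
    ext v
    rw [Finsupp.add_apply]
    by_cases h1 : v = cuspInf p
    · subst h1
      rw [Finsupp.single_eq_same, Finsupp.single_eq_of_ne hne.symm, add_zero]
    · by_cases h2 : v = cuspZero p
      · subst h2
        rw [Finsupp.single_eq_same, Finsupp.single_eq_of_ne h1, zero_add]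
      · rw [Finsupp.single_eq_of_ne h1, Finsupp.single_eq_of_ne h2, add_zero, hD v]
        apply ord_uF_of_nonneg
        by_contra hneg
        rcases eq_cuspInf_or_eq_cuspZero p v (not_le.mp hneg) with h | h
        · exact h1 h
        · exact h2 h
  rw [hsupp, map_add, Divisor.degree_single, Divisor.degree_single, deg_cuspInf, deg_cuspZero,
    hD, hD, ord_uF_cuspInf] at hdeg
  push_cast at hdeg
  linarith

/-- **The divisor of the modular unit**: `div (Δ(q^p)/Δ(q)) = (p - 1) · ((∞) - (0))`. -/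
theorem ord_uF (v : Place Kbar (FF p)) :
    v.ord (uF p) = ((p : ℤ) - 1) * (Finsupp.single (cuspInf p) (1 : ℤ) -
      Finsupp.single (cuspZero p) (1 : ℤ) : Place Kbar (FF p) →₀ ℤ) v := by
  have hne : cuspZero p ≠ cuspInf p := cuspZero_ne_cuspInf p hp.out.one_lt
  rw [Finsupp.sub_apply]
  by_cases h1 : v = cuspInf p
  · subst h1
    rw [Finsupp.single_eq_same, Finsupp.single_eq_of_ne hne.symm, ord_uF_cuspInf]
    ring
  · by_cases h2 : v = cuspZero p
    · subst h2
      rw [Finsupp.single_eq_same, Finsupp.single_eq_of_ne h1, ord_uF_cuspZero]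
      ring
    · rw [Finsupp.single_eq_of_ne h1, Finsupp.single_eq_of_ne h2, sub_zero, mul_zero]
      apply ord_uF_of_nonneg
      by_contra hneg
      rcases eq_cuspInf_or_eq_cuspZero p v (not_le.mp hneg) with h | h
      · exact h1 h
      · exact h2 h

/-- `(p - 1) · ((0) - (∞))` is principal: it is the divisor of `Δ(q)/Δ(q^p)`. -/
theorem isPrincipal_smul_cuspDivisor :
    Divisor.IsPrincipal ((p - 1 : ℕ) • cuspDivisor p) := by
  refine ⟨(uF p)⁻¹, inv_ne_zero (uF_ne_zero' p), fun v => ?_⟩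
  rw [Place.ord_inv, ord_uF, Finsupp.smul_apply, cuspDivisor, Finsupp.sub_apply, Finsupp.sub_apply,
    nsmul_eq_mul, Nat.cast_sub hp.out.one_lt.le]
  push_cast
  ring

/-- **`(p - 1) • c = 0` in `J₀(p)`.** -/
theorem smul_cuspClass_eq_zero : (p - 1) • cuspClass p = 0 := by
  rw [cuspClass, Pic0.mk, ← QuotientAddGroup.mk_nsmul, QuotientAddGroup.eq_zero_iff,
    AddSubgroup.mem_addSubgroupOf, AddSubgroupClass.coe_nsmul]
  exact Divisor.mem_principal.mpr (isPrincipal_smul_cuspDivisor p)

end ModularUnit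

end Fermat.Agent.MAZ.Cusp.CuspOrder55
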