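/-
Program MAZ (S15), brick CUSP (helper55): CONTRACT (C) OF `MAZ/Spec/XSpec62` IS CLOSED.

`cuspPkg p : XSpec62.CuspPkg (degOne p) (cuspZero p)` for every prime `p`:
the cusp `0 := W_p(∞)` has `ord j = -p`, `ord j_p = -1`, both cusps are fixed by `Gal(ℚbar/ℚ)`, and
`(p - 1) • [(0) - (∞)] = 0` in `J₀(p)`.

Also: `pointClass_eq_cuspClass`, `pointClass_cusp_ne_zero` (for `p ∉ {2,3,5,7,13}`).
-/
import Mathlib
import Fermat.Agent.MAZ.Cusp.CuspOrder55
import Fermat.Agent.MAZ.Spec.XSpec62

set_option autoImplicit false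
set_option linter.unusedSectionVars false

open AlgebraicCurve ModularCurve

noncomputable section

namespace Fermat.Agent.MAZ.Cusp.CuspPkg55

open Fermat.Agent.X0 Fermat.Agent.MAZ.Spec.XSpec62 Fermat.Agent.RED.TOP
open Fermat.Agent.MAZ.Cusp Fermat.Agent.MAZ.Spec

variable (p : ℕ) [hp : Fact p.Prime]

/-- All places of `FF p` have degree one. -/
theorem degOne : DegOne p := fun P => FbarFacts20.deg_eq_one_bar p P

/-- The cusp `∞` of the Spec is the cusp `∞` of `CuspPlaces55`. -/
theorem cuspInf_eq : XSpec62.cuspInf p = CuspPlaces55.cuspInf p := rfl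

/-- The class `[(0) - (∞)]` of the Spec is `CuspClass55.cuspClass`. -/
theorem pointClass_eq_cuspClass :
    pointClass (degOne p) (CuspPlaces55.cuspZero p) (XSpec62.cuspInf p) =
      CuspClass55.cuspClass p := by
  unfold pointClass CuspClass55.cuspClass
  congr 1

/-- **Contract (C) of `XSpec62`.** -/
theorem cuspPkg : CuspPkg (degOne p) (CuspPlaces55.cuspZero p) where
  isCuspZero := ⟨CuspPlaces55.cuspZero_ord_jF p, CuspPlaces55.cuspZero_ord_jNF p⟩
  fixedZero := fun σ => CuspPlaces55.galois_smul_cuspZero p σ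
  fixedInf := fun σ => CuspPlaces55.galois_smul_cuspInf p σ
  order := by
    rw [pointClass_eq_cuspClass]
    exact CuspOrder55.smul_cuspClass_eq_zero p

/-- The cuspidal class of the Spec is nonzero for `p ∉ {2, 3, 5, 7, 13}`. -/
theorem pointClass_cusp_ne_zero (hp' : p ∉ ({2, 3, 5, 7, 13} : Finset ℕ)) :
    pointClass (degOne p) (CuspPlaces55.cuspZero p) (XSpec62.cuspInf p) ≠ 0 := by
  rw [pointClass_eq_cuspClass]
  exact CuspClass55.cuspClass_ne_zero hp'

/-- The two cusps are the only places over `j = ∞`, in the vocabulary of the Spec. -/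
theorem eq_cuspInf_or_isCuspZero (v : Place Qb (FF p)) (hv : v.ord (jF p) < 0) :
    v = XSpec62.cuspInf p ∨ v = CuspPlaces55.cuspZero p :=
  CuspOrder55.eq_cuspInf_or_eq_cuspZero p v hv

/-- A place with the orders of the cusp `0` IS the cusp `0`. -/
theorem eq_cuspZero_of_isCuspZero (v : Place Qb (FF p)) (hv : IsCuspZero p v) :
    v = CuspPlaces55.cuspZero p := by
  have hp1 : (1 : ℤ) < p := by exact_mod_cast hp.out.one_lt
  rcases CuspOrder55.eq_cuspInf_or_eq_cuspZero p v (by rw [hv.1]; omega) with h | h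
  · exfalso
    have h1 := hv.1
    rw [h, CuspPlaces55.cuspInf_ord_jF] at h1
    omega
  · exact h

end Fermat.Agent.MAZ.Cusp.CuspPkg55
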