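/-
Program MAZ (S15), brick CUSP (helper55): BRIDGE between the two cusp vocabularies on `main`.

* `MAZ/Cusp/CuspPlaces55` (helper55): `cuspInf p = InfPlace39.infPlace p`, `cuspZero p = W_p • ∞`;
* `MAZ/Hecke/CuspVal71`   (helper71): `placeInfty p`, `placeZero p` (cusp expansions `T 1`, `T S`).

They are the same places (`cuspInf_eq_placeInfty`, `cuspZero_eq_placeZero`), so the two cuspidal
classes agree (`cuspClass_eq`), and helper71's Eisenstein property transports to the class used in
`MAZ/Spec/XSpec62` with `cZ := cuspZero p`: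

* `heckeOperatorBar_cuspClass` : `T_ℓ c = (ℓ + 1) c` for `CuspClass55.cuspClass p`;
* `heckeOperatorBar_pointClass` : the same for `XSpec62.pointClass hdeg (cuspZero p) (cuspInf p)`;
* `heckeDivBar_cuspZero_support`, `heckeDivBar_cuspInf_support` : `T_m [cusp]` is supported on the
  cusp (the two hypotheses `hZ`, `hI` of `MAZ/Point/TubeHecke90.xHecke`).
-/
import Mathlib
import Fermat.Agent.MAZ.Cusp.CuspPkg55
import Fermat.Agent.MAZ.Hecke.CuspHecke71

set_option autoImplicit false
set_option linter.unusedSectionVars false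
set_option linter.style.haveILetI false

open AlgebraicCurve ModularCurve

noncomputable section

namespace Fermat.Agent.MAZ.Cusp.CuspBridge55

open Fermat.Agent.X0 Fermat.Agent.MAZ.Spec Fermat.Agent.MAZ.Spec.XSpec62 Fermat.Agent.MAZ.Cusp
open Fermat.Agent.MAZ.Hecke Fermat.Agent.ES.HECKE

variable (p : ℕ) [hp : Fact p.Prime]

/-- The two definitions of the cusp `∞` agree. -/
theorem cuspInf_eq_placeInfty : CuspPlaces55.cuspInf p = CuspVal71.placeInfty p := by
  apply CuspVal71.eq_placeInfty_of p hp.out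
  · rw [CuspPlaces55.cuspInf_ord_jF]; norm_num
  · show (CuspPlaces55.cuspInf p).ord (jdF p p dvd_rfl) = _
    rw [CuspPlaces55.cuspInf_ord_jNF, CuspPlaces55.cuspInf_ord_jF]
    ring

/-- The two definitions of the cusp `0` agree. -/
theorem cuspZero_eq_placeZero : CuspPlaces55.cuspZero p = CuspVal71.placeZero p := by
  apply CuspVal71.eq_placeZero_of p hp.out
  · rw [CuspPlaces55.cuspZero_ord_jF]
    have : (0 : ℤ) < p := by exact_mod_cast hp.out.pos
    omega
  · show (p : ℤ) * (CuspPlaces55.cuspZero p).ord (jdF p p dvd_rfl) = _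
    rw [CuspPlaces55.cuspZero_ord_jNF, CuspPlaces55.cuspZero_ord_jF]
    ring

/-- The two cuspidal classes agree. -/
theorem cuspClass_eq : CuspClass55.cuspClass p = CuspHecke71.cuspClass p := by
  unfold CuspClass55.cuspClass CuspHecke71.cuspClass
  congr 1
  apply Subtype.ext
  show CuspClass55.cuspDivisor p = CuspHecke71.cuspDiv p
  unfold CuspClass55.cuspDivisor CuspHecke71.cuspDiv
  rw [cuspInf_eq_placeInfty, cuspZero_eq_placeZero]

/-- **Eisenstein property** of `CuspClass55.cuspClass`: `T_ℓ c = (ℓ + 1) c` for primes `ℓ ≠ p`. -/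
theorem heckeOperatorBar_cuspClass (ℓ : Nat.Primes) (hne : (ℓ : ℕ) ≠ p) :
    heckeOperatorBar p ℓ (CuspClass55.cuspClass p) =
      (((ℓ : ℕ) : ℤ) + 1) • CuspClass55.cuspClass p := by
  rw [cuspClass_eq]
  exact CuspHecke71.heckeOperatorBar_cuspClass p hp.out ℓ hne

/-- **Eisenstein property** in the vocabulary of `XSpec62`. -/
theorem heckeOperatorBar_pointClass (ℓ : Nat.Primes) (hne : (ℓ : ℕ) ≠ p) :
    heckeOperatorBar p ℓ
        (pointClass (CuspPkg55.degOne p) (CuspPlaces55.cuspZero p) (XSpec62.cuspInf p)) =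
      (((ℓ : ℕ) : ℤ) + 1) •
        pointClass (CuspPkg55.degOne p) (CuspPlaces55.cuspZero p) (XSpec62.cuspInf p) := by
  rw [CuspPkg55.pointClass_eq_cuspClass]
  exact heckeOperatorBar_cuspClass p ℓ hne

/-- `T_m [0] = (m + 1) [0]` at the divisor level. -/
theorem heckeDivBar_cuspZero {m : ℕ} [NeZero m] (hm : m.Prime) (hne : m ≠ p)
    (hα : HeckeAlphaBarIntegral Kbar p m) (hβ : HeckeBetaBarIntegral Kbar p m)
    [HasPrincipalDivisors Kbar (laurentBaseChange Kbar (modularFunctionFieldFull (p * m)))] :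
    heckeDivBar hα hβ (Finsupp.single (CuspPlaces55.cuspZero p) 1) =
      Finsupp.single (CuspPlaces55.cuspZero p) ((m : ℤ) + 1) := by
  have hmp : ¬ m ∣ p := fun h => hne ((Nat.prime_dvd_prime_iff_eq hm hp.out).mp h)
  have hFI : FundamentalIdentityAlong Kbar (heckeBetaBar Kbar p m) hβ :=
    InputsMain19.fundamentalIdentityAlong_beta p m hm hmp
  exact CuspHecke71.heckeDivBar_cusp p m hp.out hm (Ne.symm hne) hα hβ hFI _
    (Or.inr (cuspZero_eq_placeZero p))

/-- `T_m [∞] = (m + 1) [∞]` at the divisor level. -/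
theorem heckeDivBar_cuspInf {m : ℕ} [NeZero m] (hm : m.Prime) (hne : m ≠ p)
    (hα : HeckeAlphaBarIntegral Kbar p m) (hβ : HeckeBetaBarIntegral Kbar p m)
    [HasPrincipalDivisors Kbar (laurentBaseChange Kbar (modularFunctionFieldFull (p * m)))] :
    heckeDivBar hα hβ (Finsupp.single (CuspPlaces55.cuspInf p) 1) =
      Finsupp.single (CuspPlaces55.cuspInf p) ((m : ℤ) + 1) := by
  have hmp : ¬ m ∣ p := fun h => hne ((Nat.prime_dvd_prime_iff_eq hm hp.out).mp h)
  have hFI : FundamentalIdentityAlong Kbar (heckeBetaBar Kbar p m) hβ :=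
    InputsMain19.fundamentalIdentityAlong_beta p m hm hmp
  exact CuspHecke71.heckeDivBar_cusp p m hp.out hm (Ne.symm hne) hα hβ hFI _
    (Or.inl (cuspInf_eq_placeInfty p))

/-- `T_m [0]` is supported on the cusp `0`. -/
theorem heckeDivBar_cuspZero_support {m : ℕ} [NeZero m] (hm : m.Prime) (hne : m ≠ p)
    (hα : HeckeAlphaBarIntegral Kbar p m) (hβ : HeckeBetaBarIntegral Kbar p m)
    [HasPrincipalDivisors Kbar (laurentBaseChange Kbar (modularFunctionFieldFull (p * m)))]
    (y : Place Kbar (FF p))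
    (hy : heckeDivBar hα hβ (Finsupp.single (CuspPlaces55.cuspZero p) 1) y ≠ 0) :
    y = CuspPlaces55.cuspZero p := by
  rw [heckeDivBar_cuspZero p hm hne hα hβ] at hy
  by_contra h
  exact hy (Finsupp.single_eq_of_ne h)

/-- `T_m [∞]` is supported on the cusp `∞`. -/
theorem heckeDivBar_cuspInf_support {m : ℕ} [NeZero m] (hm : m.Prime) (hne : m ≠ p)
    (hα : HeckeAlphaBarIntegral Kbar p m) (hβ : HeckeBetaBarIntegral Kbar p m)
    [HasPrincipalDivisors Kbar (laurentBaseChange Kbar (modularFunctionFieldFull (p * m)))]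
    (y : Place Kbar (FF p))
    (hy : heckeDivBar hα hβ (Finsupp.single (XSpec62.cuspInf p) 1) y ≠ 0) :
    y = XSpec62.cuspInf p := by
  have hy' : heckeDivBar hα hβ (Finsupp.single (CuspPlaces55.cuspInf p) 1) y ≠ 0 := hy
  rw [heckeDivBar_cuspInf p hm hne hα hβ] at hy'
  by_contra h
  exact hy' (Finsupp.single_eq_of_ne h)

end Fermat.Agent.MAZ.Cusp.CuspBridge55
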